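/-
P-SS2 (S36), J-side, row SS2-J6B NORMREP-B (helper57): the norm along `β` (`t ↦ t ^ q`) of a
function of level `L q` (`q` prime, `q ∣ L`) is represented by `z ↦ ∏ k, F ((z + k) / q)`.

`theorem degNormRepB (hdeg : DegDegreeBStatement) (hrew : CorRewStatement) :
    Fermat.Agent.H63.SS2.DegNormRepBStatement`.

Method (twin of helper58's `normRep_of_parts`): the polynomial `P = ∏ k, (Y - F ∘ b_k)`,
`b_k = [[1, k], [0, q]]`, has holomorphic `Γ₀(L)`-invariant coefficients of moderate growth, hence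
coefficients `c_i ∈ FC L`; `∑ β(c_i) Y^i` kills `f` (factor `k = 0`); by the evaluation criterion
`H58.normAlg_eq_pow_minpoly` it is a power of the minimal polynomial of `f` over `β (FC L)`, and
its degree is `q = [FC (L q) : β (FC L)]`.
-/
import Fermat.Agent.H63.SS2.Interfaces
import Fermat.Agent.H58.EsC.NormRep
import Fermat.Agent.H13.EsACoreC
import Fermat.Agent.H32.EsAMF
import Fermat.Agent.H77.EsAGrow
import Fermat.Agent.H69.DegreeC

set_option autoImplicit false
set_option linter.style.haveILetI false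
set_option linter.unusedSectionVars false

noncomputable section

open UpperHalfPlane Matrix.SpecialLinearGroup Polynomial AlgebraicCurve CongruenceSubgroup
open scoped MatrixGroups ModularForm Manifold

namespace Fermat.Agent.H57.SS2

open Fermat.Agent.H42 Fermat.Agent.H44 Fermat.Agent.H85 Fermat.Agent.H23
open Fermat.Agent.H23.EsA Fermat.Agent.H63.SS2 Fermat.Agent.H58 Fermat.Agent.H21

/-! ### The conjugates -/

/-- The conjugates `F ∘ b_k`, `b_k = [[1, k], [0, q]]`. -/
def conjB (q : ℕ) (F : ℍ → ℂ) (k : ZMod q) (z : ℍ) : ℂ := F (corFamB q k • z)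

theorem conjB_eq_conjFun (q : ℕ) (F : ℍ → ℂ) (k : ZMod q) :
    conjB q F k = conjFun q F (k : OnePoint (ZMod q)) := rfl

/-- The polynomial `∏ k, (Y - F ∘ b_k)`. -/
def PhiB (q : ℕ) [NeZero q] (F : ℍ → ℂ) (z : ℍ) : ℂ[X] :=
  ∏ k : ZMod q, (X - C (conjB q F k z))

/-- Its coefficient functions. -/
def coeffB (q : ℕ) [NeZero q] (F : ℍ → ℂ) (i : ℕ) : ℍ → ℂ := fun z => (PhiB q F z).coeff i

section basic

variable (q : ℕ) [NeZero q]

theorem coeffB_apply (F : ℍ → ℂ) (i : ℕ) (z : ℍ) : coeffB q F i z = (PhiB q F z).coeff i := rfl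

theorem PhiB_monic (F : ℍ → ℂ) (z : ℍ) : (PhiB q F z).Monic := monic_prod_X_sub_C _ _

theorem PhiB_natDegree (F : ℍ → ℂ) (z : ℍ) : (PhiB q F z).natDegree = q := by
  unfold PhiB
  rw [natDegree_finsetProd_X_sub_C_eq_card, Finset.card_univ, ZMod.card]

theorem coeffB_top (F : ℍ → ℂ) : coeffB q F q = fun _ => 1 := by
  funext z
  have h := (PhiB_monic q F z).coeff_natDegree
  rw [PhiB_natDegree] at h
  exact h

theorem coeffB_eq_zero (F : ℍ → ℂ) {i : ℕ} (hi : q < i) : coeffB q F i = fun _ => 0 := by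
  funext z
  rw [coeffB_apply]
  exact coeff_eq_zero_of_natDegree_lt (by rw [PhiB_natDegree]; exact hi)

theorem coeffB_zero (F : ℍ → ℂ) (z : ℍ) :
    coeffB q F 0 z = (-1) ^ q * ∏ k : ZMod q, conjB q F k z := by
  rw [coeffB_apply, coeff_zero_eq_eval_zero]
  unfold PhiB
  rw [eval_prod]
  simp only [eval_sub, eval_X, eval_C, zero_sub]
  rw [Finset.prod_neg, Finset.card_univ, ZMod.card]

/-- `F` is a root of `P` at `q z` (the factor `k = 0`). -/
theorem PhiB_eval_scale (F : ℍ → ℂ) (z : ℍ) : (PhiB q F (scaleH q z)).eval (F z) = 0 := by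
  unfold PhiB
  rw [eval_prod]
  refine Finset.prod_eq_zero (Finset.mem_univ (0 : ZMod q)) ?_
  rw [eval_sub, eval_X, eval_C, sub_eq_zero]
  unfold conjB corFamB
  congr 1
  apply UpperHalfPlane.ext
  rw [ModularForm.coe_heckeMatrix_smul (NeZero.ne q), coe_scaleH, ZMod.val_zero]
  have hq : (q : ℂ) ≠ 0 := Nat.cast_ne_zero.mpr (NeZero.ne q)
  push_cast
  field_simp
  ring

end basic

/-! ### Invariance under `Γ₀(L)` -/

section invariance

variable {L q : ℕ} [NeZero q]

/-- Permutation of the conjugates under `Γ₀(L)`. -/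
theorem conjB_smul (h : Rew2 (gamma0ToGL (L * q)) (gamma0ToGL L) (corFamB q)) (F : ℍ → ℂ)
    (hF : ∀ g ∈ Gamma0 (L * q), ∀ τ : ℍ, F (g • τ) = F τ)
    (g : SL(2, ℤ)) (hg : g ∈ Gamma0 L) (k : ZMod q) (z : ℍ) :
    conjB q F k (g • z) = conjB q F (h.perm ⟨g, hg⟩ k) z := by
  have e : corFamB q k * mapGL ℝ g
      = mapGL ℝ ((h.kap ⟨g, hg⟩ k : Gamma0 (L * q)) : SL(2, ℤ))
        * corFamB q (h.tgt ⟨g, hg⟩ k) := h.spec ⟨g, hg⟩ k
  unfold conjB
  rw [ModularGroup.sl_moeb, coe_eq_mapGL, ← mul_smul, e, mul_smul, ← coe_eq_mapGL,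
    ← ModularGroup.sl_moeb, hF _ (h.kap ⟨g, hg⟩ k).2]
  rfl

/-- The polynomial `∏ k, (Y - F ∘ b_k)` is `Γ₀(L)`-invariant. -/
theorem PhiB_smul (h : Rew2 (gamma0ToGL (L * q)) (gamma0ToGL L) (corFamB q)) (F : ℍ → ℂ)
    (hF : ∀ g ∈ Gamma0 (L * q), ∀ τ : ℍ, F (g • τ) = F τ)
    (g : SL(2, ℤ)) (hg : g ∈ Gamma0 L) (z : ℍ) :
    PhiB q F (g • z) = PhiB q F z := by
  unfold PhiB
  simp_rw [conjB_smul h F hF g hg]
  exact Equiv.prod_comp (h.perm ⟨g, hg⟩) (fun k => X - C (conjB q F k z))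

theorem coeffB_smul (h : Rew2 (gamma0ToGL (L * q)) (gamma0ToGL L) (corFamB q)) (F : ℍ → ℂ)
    (hF : ∀ g ∈ Gamma0 (L * q), ∀ τ : ℍ, F (g • τ) = F τ) (i : ℕ)
    (g : SL(2, ℤ)) (hg : g ∈ Gamma0 L) (z : ℍ) :
    coeffB q F i (g • z) = coeffB q F i z := by
  rw [coeffB_apply, coeffB_apply, PhiB_smul h F hF g hg]

/-- For a `Γ₀(L)`-invariant function `G`: `G (q (b_k z)) = G (z + k) = G z`. -/
theorem invariant_scale_corFamB (G : ℍ → ℂ)
    (hG : ∀ g ∈ Gamma0 L, ∀ τ : ℍ, G (g • τ) = G τ) (k : ZMod q) (z : ℍ) :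
    G (scaleH q (corFamB q k • z)) = G z := by
  have hmem : ModularGroup.T ^ ((k.val : ℕ) : ℤ) ∈ Gamma0 L := by
    rw [Gamma0_mem]
    have h1 : (ModularGroup.T ^ ((k.val : ℕ) : ℤ) : SL(2, ℤ)) 1 0 = 0 := by
      have := congrFun (congrFun (ModularGroup.coe_T_zpow ((k.val : ℕ) : ℤ)) 1) 0
      simpa using this
    rw [h1]
    simp
  have e : scaleH q (corFamB q k • z) = (ModularGroup.T ^ ((k.val : ℕ) : ℤ)) • z := by
    apply UpperHalfPlane.ext
    rw [coe_scaleH, ModularGroup.coe_T_zpow_smul_eq]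
    unfold corFamB
    rw [ModularForm.coe_heckeMatrix_smul (NeZero.ne q)]
    have hq : (q : ℂ) ≠ 0 := Nat.cast_ne_zero.mpr (NeZero.ne q)
    push_cast
    field_simp
  rw [e, hG _ hmem]

end invariance

/-! ### Holomorphy and growth -/

section growth

variable (q : ℕ) [NeZero q] [Fact q.Prime]

theorem coeffB_translate_mem_nice (F : ℍ → ℂ) (hFd : MDiff F)
    (hFg : ∀ γ : SL(2, ℤ), ExpGrowth (fun z => F (γ • z))) (γ : SL(2, ℤ)) (i : ℕ) :
    (fun z => coeffB q F i (γ • z)) ∈ niceSubring :=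
  normAn_coeff_prod_mem_nice (fun k z => conjB q F k (γ • z))
    (fun k => normAn_conjFun_translate_mem_nice F hFd hFg γ (k : OnePoint (ZMod q))) i

theorem coeffB_mdiff (F : ℍ → ℂ) (hFd : MDiff F)
    (hFg : ∀ γ : SL(2, ℤ), ExpGrowth (fun z => F (γ • z))) (i : ℕ) :
    MDiff (coeffB q F i) := by
  have h := (coeffB_translate_mem_nice q F hFd hFg 1 i).1
  have e : (fun z => coeffB q F i ((1 : SL(2, ℤ)) • z)) = coeffB q F i := by
    funext z
    rw [one_smul]
  rwa [e] at h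

theorem coeffB_growth (F : ℍ → ℂ) (hFd : MDiff F)
    (hFg : ∀ γ : SL(2, ℤ), ExpGrowth (fun z => F (γ • z))) (i : ℕ) :
    ModerateGrowth (coeffB q F i) := by
  intro γ
  obtain ⟨-, M, C, Y, -, hb⟩ := coeffB_translate_mem_nice q F hFd hFg γ i
  exact ⟨M, C, Y, fun z hz => hb z hz⟩

end growth

/-! ### Transfer of polynomial evaluation along `β` -/

section transfer

variable {L q : ℕ} [NeZero L] [NeZero q]

/-- The coercion of `β c`. -/
theorem coe_algebraMap_beta (c : ↥(FC L)) :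
    ((@algebraMap ↥(FC L) ↥(FC (L * q)) _ _
      (algebraAlong (ModularCurve.heckeBetaBar ℂ L q)) c : ↥(FC (L * q))) : LaurentSeries ℂ)
      = ModularCurve.qExpand ℂ q ((c : ↥(FC L)) : LaurentSeries ℂ) := rfl

/-- Transfer of polynomial evaluation along `LaurentRel`, for the algebra structure `β`. -/
theorem normRepB_aeval (Q : Polynomial ↥(FC L)) (g : ℕ → ℍ → ℂ)
    (hg : ∀ k, LaurentRel (g k) ((Q.coeff k : ↥(FC L)) : LaurentSeries ℂ))
    (h : ↥(FC (L * q))) (H : ℍ → ℂ) (hH : LaurentRel H (h : LaurentSeries ℂ))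
    (n : ℕ) (hn : Q.natDegree < n) :
    LaurentRel (fun z => ∑ k ∈ Finset.range n, g k (scaleH q z) * H z ^ k)
      ((@Polynomial.aeval ↥(FC L) ↥(FC (L * q)) _ _
        (algebraAlong (ModularCurve.heckeBetaBar ℂ L q)) h Q : ↥(FC (L * q))) :
          LaurentSeries ℂ) := by
  letI := algebraAlong (ModularCurve.heckeBetaBar ℂ L q)
  rw [Polynomial.aeval_eq_sum_range' hn]
  have e : ((∑ i ∈ Finset.range n, Q.coeff i • h ^ i : ↥(FC (L * q))) : LaurentSeries ℂ)
      = ∑ i ∈ Finset.range n, ModularCurve.qExpand ℂ q ((Q.coeff i : ↥(FC L)) : LaurentSeries ℂ)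
          * (h : LaurentSeries ℂ) ^ i := by
    change (FC (L * q)).val (∑ i ∈ Finset.range n, Q.coeff i • h ^ i) = _
    rw [map_sum]
    refine Finset.sum_congr rfl fun i _ => ?_
    rw [Algebra.smul_def, map_mul, map_pow]
    rfl
  have e2 : (fun z => ∑ k ∈ Finset.range n, g k (scaleH q z) * H z ^ k)
      = ∑ k ∈ Finset.range n, (g k ∘ scaleH q) * H ^ k := by
    funext z
    simp [Finset.sum_apply]
  rw [e, e2]
  exact LaurentRel.sum _ fun i _ => ((hg i).scale q).mul (normRep_laurentRel_pow hH i)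

end transfer

/-! ### The main theorem -/

section main

variable (L q : ℕ) [NeZero L] [NeZero q]

/-- **SS2-J6B** from the ES-A statements at level `L`, A-GROW at level `L q`, the degree of `β`
and the rewriting data of the family `b_k`. -/
theorem degNormRepB_of_parts (hq : q.Prime) (hCore : CoreCStatement L)
    (hRep : RsubRepStatement L) (hHol : HolModularStatement L)
    (hGrow : Fermat.Agent.H94.EsA.InvariantGrowthStatement (L * q))
    (hDeg : finrankAlong ℂ (ModularCurve.heckeBetaBar ℂ L q) = q)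
    (hrew : Rew2 (gamma0ToGL (L * q)) (gamma0ToGL L) (corFamB q))
    (f : ↥(FC (L * q))) (F : ℍ → ℂ) (hFd : MDiff F) (hFf : Rep (L * q) F f) :
    Rep L (fun z => ∏ k : ZMod q, F (corFamB q k • z))
      (Fermat.Agent.H11.SS2.ss2NormAlong (ModularCurve.heckeBetaBar ℂ L q) f) := by
  haveI : Fact q.Prime := ⟨hq⟩
  have hq0 : 0 < q := hq.pos
  -- invariance and growth of `F`
  obtain ⟨hFinv', hFg'⟩ := hGrow f F hFf
  have hFinv : ∀ g ∈ Gamma0 (L * q), ∀ τ : ℍ, F (g • τ) = F τ :=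
    fun g hg τ => hFinv' ⟨g, hg⟩ τ
  have hFg : ∀ γ : SL(2, ℤ), ExpGrowth (fun z => F (γ • z)) := fun γ => hFg' γ
  -- the coefficients
  have hex : ∀ k, ∃ c : ↥(FC L), Rep L (coeffB q F k) c := fun k =>
    hHol _ (coeffB_mdiff q F hFd hFg k)
      (fun g hg z => coeffB_smul hrew F hFinv k g hg z) (coeffB_growth q F hFd hFg k)
  choose c hc using hex
  have hctop : c q = 1 := by
    have h1 := hc q
    rw [coeffB_top] at h1
    exact Subtype.ext (LaurentRel.unique_right h1 laurentRel_one)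
  have hczero : ∀ k, q < k → c k = 0 := by
    intro k hk
    have h1 := hc k
    rw [coeffB_eq_zero q F hk] at h1
    exact Subtype.ext (LaurentRel.unique_right h1 laurentRel_zero)
  -- the polynomial
  set P : Polynomial ↥(FC L) := ∑ k ∈ Finset.range (q + 1), C (c k) * X ^ k with hPdef
  have hPcoeff : ∀ k, P.coeff k = c k := by
    intro k
    rw [hPdef, finsetSum_coeff]
    simp only [coeff_C_mul_X_pow]
    by_cases hk : k < q + 1
    · rw [Finset.sum_eq_single k]
      · simp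
      · intro b _ hbk
        rw [if_neg (Ne.symm hbk)]
      · intro hk'
        exact absurd (Finset.mem_range.mpr hk) hk'
    · rw [hczero k (by omega)]
      apply Finset.sum_eq_zero
      intro b hb
      rw [if_neg]
      intro h
      rw [h] at hk
      exact hk (Finset.mem_range.mp hb)
  have hPdeg_le : P.natDegree ≤ q :=
    natDegree_le_iff_coeff_eq_zero.mpr (fun k hk => by rw [hPcoeff, hczero k hk])
  have hPmonic : P.Monic :=
    monic_of_natDegree_le_of_coeff_eq_one q hPdeg_le (by rw [hPcoeff, hctop])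
  have hPdeg : P.natDegree = q :=
    le_antisymm hPdeg_le (le_natDegree_of_ne_zero (by rw [hPcoeff, hctop]; exact one_ne_zero))
  -- the algebraic setting
  letI alg : Algebra ↥(FC L) ↥(FC (L * q)) := algebraAlong (ModularCurve.heckeBetaBar ℂ L q)
  letI mod : Module ↥(FC L) ↥(FC (L * q)) := alg.toModule
  have hfinrank : Module.finrank ↥(FC L) ↥(FC (L * q)) = q := hDeg
  haveI : FiniteDimensional ↥(FC L) ↥(FC (L * q)) :=
    Module.finite_of_finrank_pos (by rw [hfinrank]; exact hq0)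
  haveI := normRep_isFractionRing L hCore
  obtain ⟨Θ, hΘ⟩ := normRep_exists_theta L hRep
  have hΘinv : ∀ (r : ↥(RsubC L)), ∀ g ∈ Gamma0 L, ∀ z : ℍ, Θ r (g • z) = Θ r z := by
    intro r g hg z
    obtain ⟨h0, hh0, -, hinv, -⟩ := hRep (r : ↥(FC L)) r.2
    have e : Θ r = h0 := LaurentRel.unique_left (hΘ r) hh0
    rw [e]
    exact hinv g hg z
  have hH : LaurentRel F (f : LaurentSeries ℂ) := hFf
  -- `P(f) = 0`
  have hPh : aeval f P = 0 := by
    have h1 := normRepB_aeval P (coeffB q F) (fun k => by rw [hPcoeff]; exact hc k) f _ hH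
      (q + 1) (by omega)
    have h2 : (fun z => ∑ k ∈ Finset.range (q + 1),
        coeffB q F k (scaleH q z) * F z ^ k) = 0 := by
      funext z
      have h3 := PhiB_eval_scale q F z
      rw [eval_eq_sum_range' (by rw [PhiB_natDegree]; omega :
        (PhiB q F (scaleH q z)).natDegree < q + 1)] at h3
      exact h3
    rw [h2] at h1
    exact Subtype.ext (h1.unique_right laurentRel_zero)
  -- separation
  have hev : ∀ a : ↥(RsubC L), a ≠ 0 →
      ∃ z, ((Pi.evalRingHom (fun _ : ℍ => ℂ) z).comp Θ) a ≠ 0 := by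
    intro a ha
    by_contra hcon
    push Not at hcon
    have hz : Θ a = 0 := funext fun z => hcon z
    have h1 : Rep L (0 : ℍ → ℂ) (a : ↥(FC L)) := hz ▸ hΘ a
    have h2 : ((a : ↥(FC L)) : LaurentSeries ℂ) = 0 := LaurentRel.unique_right h1 laurentRel_zero
    exact ha (Subtype.ext (Subtype.ext h2))
  -- roots
  have hroot : ∀ Q : Polynomial ↥(RsubC L),
      aeval f (Q.map (algebraMap ↥(RsubC L) ↥(FC L))) = 0 →
      ∀ (z : ℍ) (k : ZMod q),
        (Q.map ((Pi.evalRingHom (fun _ : ℍ => ℂ) z).comp Θ)).eval (conjB q F k z) = 0 := by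
    intro Q hQ z k
    have h1 := normRepB_aeval (Q.map (algebraMap ↥(RsubC L) ↥(FC L))) (fun j => Θ (Q.coeff j))
      (fun j => by rw [coeff_map]; exact hΘ (Q.coeff j)) f _ hH (Q.natDegree + 1)
      (Nat.lt_succ_of_le natDegree_map_le)
    rw [hQ] at h1
    have h2 := h1.unique_left laurentRel_zero
    have h3 := congrFun h2 (corFamB q k • z)
    simp only [Pi.zero_apply] at h3
    rw [eval_map, eval₂_eq_sum_range' _ (Nat.lt_succ_self _)]
    rw [← h3]
    refine Finset.sum_congr rfl fun j _ => ?_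
    rw [invariant_scale_corFamB (Θ (Q.coeff j)) (hΘinv (Q.coeff j)) k z]
    rfl
  -- product
  have hprod : ∀ (b : ↥(RsubC L)) (Q : Polynomial ↥(RsubC L)),
      Q.map (algebraMap ↥(RsubC L) ↥(FC L)) = C (algebraMap ↥(RsubC L) ↥(FC L) b) * P →
      ∀ z : ℍ, Q.map ((Pi.evalRingHom (fun _ : ℍ => ℂ) z).comp Θ)
        = C (((Pi.evalRingHom (fun _ : ℍ => ℂ) z).comp Θ) b)
          * ∏ k : ZMod q, (X - C (conjB q F k z)) := by
    intro b Q hQ z
    ext k
    rw [coeff_map, coeff_C_mul]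
    have h1 : Θ (Q.coeff k) = Θ b * coeffB q F k := by
      refine LaurentRel.unique_left (hΘ (Q.coeff k)) ?_
      have h2 := congrArg (fun R => R.coeff k) hQ
      simp only [coeff_map, coeff_C_mul, hPcoeff] at h2
      have h3 : (((Q.coeff k : ↥(RsubC L)) : ↥(FC L)) : LaurentSeries ℂ)
          = (((b : ↥(RsubC L)) : ↥(FC L)) : LaurentSeries ℂ)
            * ((c k : ↥(FC L)) : LaurentSeries ℂ) := by
        have h4 := congrArg (fun y : ↥(FC L) => (y : LaurentSeries ℂ)) h2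
        exact h4
      rw [h3]
      exact (hΘ b).mul (hc k)
    have h5 := congrFun h1 z
    exact h5
  obtain ⟨e, he⟩ := normAlg_eq_pow_minpoly (A := ↥(RsubC L)) (K := ↥(FC L))
    (L := ↥(FC (L * q))) (Ω := ℂ) (Z := ℍ) (ι := ZMod q)
    (fun z => (Pi.evalRingHom (fun _ : ℍ => ℂ) z).comp Θ) hev (fun z k => conjB q F k z)
    f P hPmonic hPh hroot hprod
  have hnorm := normAlg_norm_eq_of_eq_pow_minpoly f P e he (by rw [hPdeg, hfinrank])
  -- conclusion
  change Rep L (fun z => ∏ k : ZMod q, F (corFamB q k • z)) (Algebra.norm ↥(FC L) f)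
  rw [hnorm, hfinrank, hPcoeff]
  have e1 : (fun z => ∏ k : ZMod q, F (corFamB q k • z))
      = (fun _ => ((-1 : ℂ)) ^ q) * coeffB q F 0 := by
    funext z
    rw [Pi.mul_apply, coeffB_zero, ← mul_assoc, ← pow_add]
    have : ((-1 : ℂ)) ^ (q + q) = 1 := by
      rw [← two_mul, pow_mul]
      simp
    rw [this, one_mul]
    rfl
  have e2 : ((((-1) ^ q * c 0 : ↥(FC L)) : ↥(FC L)) : LaurentSeries ℂ)
      = HahnSeries.C ((-1 : ℂ) ^ q) * ((c 0 : ↥(FC L)) : LaurentSeries ℂ) := by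
    rw [map_pow, map_neg, map_one]
    rfl
  unfold Fermat.Agent.H23.EsA.Rep
  rw [e1, e2]
  exact (laurentRel_const _).mul (hc 0)

end main

/-- **SS2-J6B (NORMREP-B).** -/
theorem degNormRepB (hdeg : DegDegreeBStatement) (hrew : CorRewStatement) :
    DegNormRepBStatement := by
  intro L q _ _ hq hqL f F hFd hFf
  exact degNormRepB_of_parts L q hq (Fermat.Agent.H13.esaCoreC L) (Fermat.Agent.H13.esaRsubRep L)
    (Fermat.Agent.H32.holModular L (Fermat.Agent.H13.esaCoreC L) (Fermat.Agent.H13.esaRsubRep L)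
      (Fermat.Agent.H69.DegC.degreeC L))
    (Fermat.Agent.H77.esg_invariantGrowthStatement (L * q) (Fermat.Agent.H13.esaCoreC (L * q))
      (Fermat.Agent.H13.esaRsubRep (L * q)))
    (hdeg L q hq hqL) (hrew L q hq hqL).2 f F hFd hFf

end Fermat.Agent.H57.SS2

end
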